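/-
helper97 (TW, bridge brick): **local–global surjectivity**.

`localGaloisToGlobal q : Gal(ℚ̄_q/ℚ_q) → Gal(ℚ̄/ℚ)` (Prelude) maps ONTO the decomposition group of
the place `padicPlace q` of `ℚ̄` (and is injective by `PT/BR/LocInj13`), so
`primeLocalGaloisGroup q ≃* D_{primeLocalPlace q}`.

Proof.  `σ ∈ D_P` preserves the valuation ring `P = {x | ‖ι x‖ ≤ 1}`, hence the norm `x ↦ ‖ι x‖`
(`x^n q^j ∈ P ⟺ ‖ι x‖^n ≤ q^j`).  By Krasner (`LocInj13`) `Ω = PadicAlgCl q` is generated by `ℚ_q` and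
`ι(ℚ̄)`, i.e. `φ : ℚ_q ⊗ ℚ̄ → Ω` is onto; `ψ := φ ∘ (1 ⊗ σ)` kills `ker φ` because a `ℚ_q`-linear relation
is a limit of `ℚ`-linear combinations `y` with `ι y → 0` and `σ` is an isometry.  The induced
`ℚ_q`-endomorphism `τ` of the algebraic extension `Ω` is an automorphism and restricts to `σ`.
-/
import Mathlib
import Fermat.Prelude.Def_GaloisRep_CompletionBridge
import Fermat.Prelude.Def_ExtEndgame_ProductionDatum
import Fermat.Agent.PT.BR.LocInj13
import Fermat.Agent.TW.OrdLocal.PadicPlace97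

set_option autoImplicit false

open scoped NNReal TensorProduct Pointwise

namespace Fermat.Agent.TW.Bridge.LocalGlobal97

local notation "Qb" => AlgebraicClosure ℚ

section AbstractNorm

variable {K : Type*} [Field K]

/-- Two multiplicative real-valued "norms" with the same unit ball which agree on an element `c`
with `0 < N c < 1` cannot satisfy `N x < N' x`. -/
theorem not_lt_of_le_one_iff (N N' : K →*₀ ℝ) (hN : ∀ x, 0 ≤ N x)
    (c : K) (hc : N c = N' c) (hc0 : 0 < N c) (hc1 : N c < 1)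
    (h : ∀ x, N x ≤ 1 → N' x ≤ 1) (x : K) : ¬ N x < N' x := by
  intro hlt
  have hx0 : x ≠ 0 := by
    rintro rfl
    rw [map_zero, map_zero] at hlt
    exact lt_irrefl _ hlt
  have ha : 0 < N x := lt_of_le_of_ne (hN x) (Ne.symm ((map_ne_zero N).mpr hx0))
  set a := N x with ha_def
  set b := N' x with hb_def
  set Q := (N c)⁻¹ with hQ
  have hQ1 : 1 < Q := (one_lt_inv₀ hc0).mpr hc1
  have hQ0 : 0 < Q := lt_trans one_pos hQ1
  have hba : 1 < b / a := (one_lt_div ha).mpr hlt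
  obtain ⟨n, hn⟩ := pow_unbounded_of_one_lt Q hba
  have han : 0 < a ^ n := pow_pos ha n
  obtain ⟨j, hj1, hj2⟩ := exists_mem_Ico_zpow han hQ1
  -- the test element
  set y : K := x ^ n * c ^ (j + 1) with hy
  have hNc : N c = Q⁻¹ := by rw [hQ, inv_inv]
  have hNy : N y = a ^ n * (Q ^ (j + 1))⁻¹ := by
    rw [hy, map_mul, map_pow, map_zpow₀, hNc, inv_zpow]
  have hN'y : N' y = b ^ n * (Q ^ (j + 1))⁻¹ := by
    rw [hy, map_mul, map_pow, map_zpow₀, ← hc, hNc, inv_zpow]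
  have hQj : 0 < Q ^ (j + 1) := zpow_pos hQ0 _
  have h1 : N y ≤ 1 := by
    rw [hNy, ← div_eq_mul_inv, div_le_one hQj]
    exact hj2.le
  have h2 : 1 < N' y := by
    rw [hN'y, ← div_eq_mul_inv, one_lt_div hQj]
    have e : b ^ n = a ^ n * (b / a) ^ n := by
      rw [div_pow, mul_div_cancel₀ _ (ne_of_gt han)]
    rw [e, zpow_add_one₀ (ne_of_gt hQ0)]
    calc Q ^ j * Q ≤ a ^ n * Q := by gcongr
      _ < a ^ n * (b / a) ^ n := by gcongr
  exact absurd (h y h1) (not_le.mpr h2)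

/-- Two multiplicative real-valued "norms" with the same unit ball which agree on an element `c`
with `0 < N c < 1` are equal. -/
theorem eq_of_le_one_iff (N N' : K →*₀ ℝ) (hN : ∀ x, 0 ≤ N x) (hN' : ∀ x, 0 ≤ N' x)
    (c : K) (hc : N c = N' c) (hc0 : 0 < N c) (hc1 : N c < 1)
    (h : ∀ x, N x ≤ 1 ↔ N' x ≤ 1) (x : K) : N x = N' x := by
  rcases lt_trichotomy (N x) (N' x) with hlt | heq | hgt
  · exact absurd hlt (not_lt_of_le_one_iff N N' hN c hc hc0 hc1 (fun x => (h x).mp) x)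
  · exact heq
  · exact absurd hgt (not_lt_of_le_one_iff N' N hN' c hc.symm (hc ▸ hc0) (hc ▸ hc1)
      (fun x => (h x).mpr) x)

end AbstractNorm

section Isometry

variable (q : ℕ) [Fact q.Prime]

/-- Elements of the decomposition group preserve the valuation ring. -/
theorem apply_mem_iff_of_mem_decomposition {P : ValuationSubring Qb} {σ : Qb ≃ₐ[ℚ] Qb}
    (hσ : σ ∈ P.decompositionSubgroup ℚ) (x : Qb) : σ x ∈ P ↔ x ∈ P := by
  have h1 : σ • P = P := MulAction.mem_stabilizer_iff.mp hσ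
  have h2 : σ • x ∈ σ • P ↔ x ∈ P := ValuationSubring.smul_mem_pointwise_smul_iff
  rw [h1] at h2
  exact h2

/-- The norm `x ↦ ‖ι x‖` on `ℚ̄`. -/
noncomputable def normQb : Qb →*₀ ℝ :=
  (normHom : PadicAlgCl q →*₀ ℝ).comp
    (padicEmbedding q : Qb →+* PadicAlgCl q).toMonoidWithZeroHom

theorem normQb_apply (x : Qb) : normQb q x = ‖padicEmbedding q x‖ := rfl

theorem normQb_le_one_iff (x : Qb) : normQb q x ≤ 1 ↔ x ∈ padicPlace q := by
  rw [mem_padicPlace_iff, normQb_apply, ← NNReal.coe_le_coe]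
  rfl

theorem normQb_natCast : normQb q (q : Qb) = (q : ℝ)⁻¹ := by
  rw [normQb_apply, map_natCast]
  have h3 : ‖(q : PadicAlgCl q)‖₊ = 1 / (q : ℝ≥0) := PadicAlgCl.valuation_p q
  have h4 := congrArg (fun t : ℝ≥0 => (t : ℝ)) h3
  simpa using h4

/-- **Elements of the decomposition group of `padicPlace q` are isometries** for `‖ι ·‖`. -/
theorem norm_padicEmbedding_apply_of_mem_decomposition {σ : Qb ≃ₐ[ℚ] Qb}
    (hσ : σ ∈ (padicPlace q).decompositionSubgroup ℚ) (x : Qb) :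
    ‖padicEmbedding q (σ x)‖ = ‖padicEmbedding q x‖ := by
  set N : Qb →*₀ ℝ := normQb q with hN
  set N' : Qb →*₀ ℝ := (normQb q).comp (σ : Qb →+* Qb).toMonoidWithZeroHom with hN'
  have hq1 : (1 : ℝ) < q := by exact_mod_cast (Fact.out : q.Prime).one_lt
  have hq0 : (0 : ℝ) < q := lt_trans one_pos hq1
  have hσq : σ (q : Qb) = (q : Qb) := map_natCast σ q
  have key := eq_of_le_one_iff N N'
    (fun x => (norm_nonneg _ : 0 ≤ ‖padicEmbedding q x‖))
    (fun x => (norm_nonneg _ : 0 ≤ ‖padicEmbedding q (σ x)‖)) (q : Qb)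
    (by
      show normQb q (q : Qb) = normQb q (σ (q : Qb))
      rw [hσq])
    (by rw [hN, normQb_natCast]; exact inv_pos.mpr hq0)
    (by rw [hN, normQb_natCast]; exact inv_lt_one_of_one_lt₀ hq1)
    (fun x => by
      show normQb q x ≤ 1 ↔ normQb q (σ x) ≤ 1
      rw [normQb_le_one_iff, normQb_le_one_iff, apply_mem_iff_of_mem_decomposition hσ]) x
  exact key.symm

end Isometry

section Lift

variable (q : ℕ) [Fact q.Prime]

local instance instTowerQqPadic97 : IsScalarTower ℚ ℚ_[q] (PadicAlgCl q) :=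
  IsScalarTower.of_algebraMap_eq' (Subsingleton.elim _ _)

/-- `ℚ_q → Ω` as a `ℚ`-algebra map. -/
noncomputable def fQ : ℚ_[q] →ₐ[ℚ] PadicAlgCl q := IsScalarTower.toAlgHom ℚ ℚ_[q] (PadicAlgCl q)

theorem fQ_apply (a : ℚ_[q]) : fQ q a = algebraMap ℚ_[q] (PadicAlgCl q) a := rfl

theorem norm_fQ (a : ℚ_[q]) : ‖fQ q a‖ = ‖a‖ := PadicAlgCl.norm_extends q a

/-- The product map `ℚ_q ⊗ ℚ̄ → Ω` twisted by an automorphism `σ` of `ℚ̄`. -/
noncomputable def prodMap (σ : Qb ≃ₐ[ℚ] Qb) : ℚ_[q] ⊗[ℚ] Qb →ₐ[ℚ] PadicAlgCl q :=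
  Algebra.TensorProduct.productMap (fQ q) ((padicEmbedding q).comp (σ : Qb →ₐ[ℚ] Qb))

theorem prodMap_tmul (σ : Qb ≃ₐ[ℚ] Qb) (a : ℚ_[q]) (x : Qb) :
    prodMap q σ (a ⊗ₜ x) = fQ q a * padicEmbedding q (σ x) := rfl

/-- Krasner: `ℚ_q ⊗ ℚ̄ → Ω` is surjective. -/
theorem prodMap_one_surjective : Function.Surjective (prodMap q (1 : Qb ≃ₐ[ℚ] Qb)) := by
  intro a
  obtain ⟨β, hβ⟩ := Fermat.Agent.PT.BR.LocInj13.exists_mem_adjoin_padicEmbedding q a
  -- the range of the product map as a `ℚ_q`-subalgebra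
  let R : Subalgebra ℚ_[q] (PadicAlgCl q) :=
    { (prodMap q (1 : Qb ≃ₐ[ℚ] Qb)).range.toSubsemiring with
      algebraMap_mem' := fun c => ⟨c ⊗ₜ 1, by
        show prodMap q 1 (c ⊗ₜ 1) = _
        rw [prodMap_tmul, map_one, map_one, mul_one, fQ_apply]⟩ }
  have hint : IsAlgebraic ℚ_[q] (padicEmbedding q β) := Algebra.IsAlgebraic.isAlgebraic _
  have h1 : a ∈ Algebra.adjoin ℚ_[q] {padicEmbedding q β} := by
    rw [← IntermediateField.adjoin_simple_toSubalgebra_of_isAlgebraic hint]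
    exact hβ
  have h2 : Algebra.adjoin ℚ_[q] {padicEmbedding q β} ≤ R := by
    refine Algebra.adjoin_le ?_
    rintro _ rfl
    exact ⟨1 ⊗ₜ β, by
      show prodMap q 1 (1 ⊗ₜ β) = _
      rw [prodMap_tmul, map_one, one_mul]
      rfl⟩
  exact h2 h1

/-- **Key estimate**: for `σ` in the decomposition group, `ker φ ≤ ker (φ ∘ (1 ⊗ σ))`. -/
theorem prodMap_eq_zero_of_prodMap_one_eq_zero {σ : Qb ≃ₐ[ℚ] Qb}
    (hσ : σ ∈ (padicPlace q).decompositionSubgroup ℚ) (t : ℚ_[q] ⊗[ℚ] Qb)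
    (ht : prodMap q 1 t = 0) : prodMap q σ t = 0 := by
  obtain ⟨S, rfl⟩ := TensorProduct.exists_finset t
  rw [map_sum] at ht ⊢
  simp only [prodMap_tmul] at ht ⊢
  have ht' : ∑ i ∈ S, fQ q i.1 * padicEmbedding q i.2 = 0 := ht
  set C : ℝ := ∑ i ∈ S, ‖padicEmbedding q i.2‖ with hC
  have hC0 : 0 ≤ C := Finset.sum_nonneg fun i _ => norm_nonneg _
  -- it suffices to bound the norm by `2 ε C` for all `ε > 0`
  rw [← norm_le_zero_iff]
  refine le_of_forall_pos_le_add fun δ hδ => ?_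
  rw [zero_add]
  obtain ⟨ε, hε0, hεC⟩ : ∃ ε : ℝ, 0 < ε ∧ 2 * ε * C ≤ δ := by
    refine ⟨δ / (2 * (C + 1)), by positivity, ?_⟩
    have hC1 : 0 < C + 1 := by linarith
    calc 2 * (δ / (2 * (C + 1))) * C = δ * (C / (C + 1)) := by field_simp
      _ ≤ δ * 1 := by
        gcongr
        exact (div_le_one hC1).mpr (by linarith)
      _ = δ := mul_one δ
  -- rational approximations
  choose r hr using fun a : ℚ_[q] => Padic.rat_dense q a hε0
  set y : Qb := ∑ i ∈ S, (r i.1 : Qb) * i.2 with hy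
  have hfr : ∀ c : ℚ, fQ q (c : ℚ_[q]) = (c : PadicAlgCl q) := fun c => by
    rw [fQ_apply, map_ratCast]
  have hιy : ∀ τ : Qb ≃ₐ[ℚ] Qb, padicEmbedding q (τ y) =
      ∑ i ∈ S, fQ q (r i.1 : ℚ_[q]) * padicEmbedding q (τ i.2) := by
    intro τ
    rw [hy, map_sum, map_sum]
    refine Finset.sum_congr rfl fun i _ => ?_
    rw [map_mul, map_mul, map_ratCast, map_ratCast, hfr]
  -- `‖ι y‖ ≤ ε C`
  have hy_le : ‖padicEmbedding q y‖ ≤ ε * C := by
    have e1 : padicEmbedding q y =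
        ∑ i ∈ S, fQ q ((r i.1 : ℚ_[q]) - i.1) * padicEmbedding q i.2 := by
      have := hιy 1
      simp only [AlgEquiv.one_apply] at this
      rw [this, ← sub_zero (∑ i ∈ S, fQ q (r i.1 : ℚ_[q]) * padicEmbedding q i.2), ← ht',
        ← Finset.sum_sub_distrib]
      refine Finset.sum_congr rfl fun i _ => ?_
      rw [map_sub, sub_mul]
    rw [e1, hC, Finset.mul_sum]
    refine (norm_sum_le _ _).trans (Finset.sum_le_sum fun i _ => ?_)
    rw [norm_mul, norm_fQ, norm_sub_rev]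
    exact mul_le_mul_of_nonneg_right (hr i.1).le (norm_nonneg _)
  -- `‖ψ t - ι (σ y)‖ ≤ ε C`
  have hdiff : ‖(∑ i ∈ S, fQ q i.1 * padicEmbedding q (σ i.2)) - padicEmbedding q (σ y)‖
      ≤ ε * C := by
    rw [hιy σ, ← Finset.sum_sub_distrib, hC, Finset.mul_sum]
    refine (norm_sum_le _ _).trans (Finset.sum_le_sum fun i _ => ?_)
    rw [← sub_mul, ← map_sub, norm_mul, norm_fQ,
      norm_padicEmbedding_apply_of_mem_decomposition q hσ]
    exact mul_le_mul_of_nonneg_right (hr i.1).le (norm_nonneg _)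
  have hσy : ‖padicEmbedding q (σ y)‖ ≤ ε * C := by
    rw [norm_padicEmbedding_apply_of_mem_decomposition q hσ]
    exact hy_le
  calc ‖∑ i ∈ S, fQ q i.1 * padicEmbedding q (σ i.2)‖
      = ‖((∑ i ∈ S, fQ q i.1 * padicEmbedding q (σ i.2)) - padicEmbedding q (σ y))
          + padicEmbedding q (σ y)‖ := by rw [sub_add_cancel]
    _ ≤ ε * C + ε * C := (norm_add_le _ _).trans (add_le_add hdiff hσy)
    _ = 2 * ε * C := by ring
    _ ≤ δ := hεC

/-- The ring endomorphism of `Ω` induced by `σ ∈ D_P`. -/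
noncomputable def liftRingHom {σ : Qb ≃ₐ[ℚ] Qb}
    (hσ : σ ∈ (padicPlace q).decompositionSubgroup ℚ) : PadicAlgCl q →+* PadicAlgCl q :=
  RingHom.liftOfSurjective (prodMap q 1 : ℚ_[q] ⊗[ℚ] Qb →+* PadicAlgCl q)
    (prodMap_one_surjective q)
    ⟨(prodMap q σ : ℚ_[q] ⊗[ℚ] Qb →+* PadicAlgCl q), fun t ht =>
      prodMap_eq_zero_of_prodMap_one_eq_zero q hσ t ht⟩

theorem liftRingHom_prodMap {σ : Qb ≃ₐ[ℚ] Qb}
    (hσ : σ ∈ (padicPlace q).decompositionSubgroup ℚ) (t : ℚ_[q] ⊗[ℚ] Qb) :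
    liftRingHom q hσ (prodMap q 1 t) = prodMap q σ t :=
  RingHom.liftOfSurjective_comp_apply _ (prodMap_one_surjective q) _ t

theorem liftRingHom_algebraMap {σ : Qb ≃ₐ[ℚ] Qb}
    (hσ : σ ∈ (padicPlace q).decompositionSubgroup ℚ) (a : ℚ_[q]) :
    liftRingHom q hσ (algebraMap ℚ_[q] (PadicAlgCl q) a) = algebraMap ℚ_[q] (PadicAlgCl q) a := by
  have h1 : prodMap q 1 (a ⊗ₜ (1 : Qb)) = algebraMap ℚ_[q] (PadicAlgCl q) a := by
    rw [prodMap_tmul, map_one, map_one, mul_one, fQ_apply]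
  have h2 : prodMap q σ (a ⊗ₜ (1 : Qb)) = algebraMap ℚ_[q] (PadicAlgCl q) a := by
    rw [prodMap_tmul, map_one, map_one, mul_one, fQ_apply]
  rw [← h1, liftRingHom_prodMap, h2, h1]

theorem liftRingHom_padicEmbedding {σ : Qb ≃ₐ[ℚ] Qb}
    (hσ : σ ∈ (padicPlace q).decompositionSubgroup ℚ) (x : Qb) :
    liftRingHom q hσ (padicEmbedding q x) = padicEmbedding q (σ x) := by
  have h1 : prodMap q 1 ((1 : ℚ_[q]) ⊗ₜ x) = padicEmbedding q x := by
    rw [prodMap_tmul, map_one, one_mul]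
    rfl
  have h2 : prodMap q σ ((1 : ℚ_[q]) ⊗ₜ x) = padicEmbedding q (σ x) := by
    rw [prodMap_tmul, map_one, one_mul]
  rw [← h1, liftRingHom_prodMap, h2]

/-- The `ℚ_q`-algebra endomorphism of `Ω` induced by `σ ∈ D_P`. -/
noncomputable def liftAlgHom {σ : Qb ≃ₐ[ℚ] Qb}
    (hσ : σ ∈ (padicPlace q).decompositionSubgroup ℚ) : PadicAlgCl q →ₐ[ℚ_[q]] PadicAlgCl q :=
  { liftRingHom q hσ with commutes' := liftRingHom_algebraMap q hσ }

/-- The element of the local Galois group induced by `σ ∈ D_P`. -/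
noncomputable def liftAlgEquiv {σ : Qb ≃ₐ[ℚ] Qb}
    (hσ : σ ∈ (padicPlace q).decompositionSubgroup ℚ) : PadicAlgCl q ≃ₐ[ℚ_[q]] PadicAlgCl q :=
  AlgEquiv.ofBijective (liftAlgHom q hσ) (Algebra.IsAlgebraic.algHom_bijective _)

theorem liftAlgEquiv_padicEmbedding {σ : Qb ≃ₐ[ℚ] Qb}
    (hσ : σ ∈ (padicPlace q).decompositionSubgroup ℚ) (x : Qb) :
    liftAlgEquiv q hσ (padicEmbedding q x) = padicEmbedding q (σ x) :=
  liftRingHom_padicEmbedding q hσ x

/-- **Local–global surjectivity**: every element of the decomposition group of `padicPlace q`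
comes from the local Galois group. -/
theorem localGaloisToGlobal_liftAlgEquiv {σ : Qb ≃ₐ[ℚ] Qb}
    (hσ : σ ∈ (padicPlace q).decompositionSubgroup ℚ) :
    localGaloisToGlobal q (liftAlgEquiv q hσ) = σ := by
  refine AlgEquiv.ext fun x => ?_
  apply (padicEmbedding q).toRingHom.injective
  show padicEmbedding q (localGaloisToGlobal q (liftAlgEquiv q hσ) x) = padicEmbedding q (σ x)
  rw [padicEmbedding_localGaloisToGlobal, liftAlgEquiv_padicEmbedding]

theorem exists_localGaloisToGlobal_eq {σ : Qb ≃ₐ[ℚ] Qb}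
    (hσ : σ ∈ (padicPlace q).decompositionSubgroup ℚ) :
    ∃ τ : PadicAlgCl q ≃ₐ[ℚ_[q]] PadicAlgCl q, localGaloisToGlobal q τ = σ :=
  ⟨liftAlgEquiv q hσ, localGaloisToGlobal_liftAlgEquiv q hσ⟩

/-- The image of the local Galois group is exactly the decomposition group. -/
theorem range_localGaloisToGlobal :
    (localGaloisToGlobal q).range = (padicPlace q).decompositionSubgroup ℚ := by
  ext σ
  constructor
  · rintro ⟨τ, rfl⟩
    exact localGaloisToGlobal_mem_decompositionSubgroup q τ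
  · intro hσ
    exact exists_localGaloisToGlobal_eq q hσ

end Lift

section Primes

open ExtCitation

/-- `primeLocalToGlobal q` maps onto the decomposition group of `primeLocalPlace q`. -/
theorem range_primeLocalToGlobal (q : Nat.Primes) :
    (primeLocalToGlobal q).range = (primeLocalPlace q).decompositionSubgroup ℚ := by
  have : Fact (q : ℕ).Prime := ⟨q.2⟩
  exact range_localGaloisToGlobal (q : ℕ)

theorem exists_primeLocalToGlobal_eq (q : Nat.Primes) {σ : Qb ≃ₐ[ℚ] Qb}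
    (hσ : σ ∈ (primeLocalPlace q).decompositionSubgroup ℚ) :
    ∃ τ : primeLocalGaloisGroup q, primeLocalToGlobal q τ = σ := by
  have h := range_primeLocalToGlobal q
  rw [← h] at hσ
  exact hσ

/-- The inertia group of `primeLocalPlace q` is in the image of the local Galois group. -/
theorem inertiaSubgroupIn_le_range (q : Nat.Primes) :
    (primeLocalPlace q).inertiaSubgroupIn ℚ ≤ (primeLocalToGlobal q).range := by
  rw [range_primeLocalToGlobal]
  rintro σ hσ
  obtain ⟨τ, -, rfl⟩ := Subgroup.mem_map.mp hσ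
  exact τ.2

/-- The local Galois group is isomorphic to the decomposition group of `primeLocalPlace q`. -/
noncomputable def primeLocalEquivDecomposition (q : Nat.Primes) :
    primeLocalGaloisGroup q ≃* ↥((primeLocalPlace q).decompositionSubgroup ℚ) :=
  (MonoidHom.ofInjective
      (Fermat.Agent.PT.BR.LocInj13.primeLocalToGlobal_injective q)).trans
    (MulEquiv.subgroupCongr (range_primeLocalToGlobal q))

theorem coe_primeLocalEquivDecomposition (q : Nat.Primes) (τ : primeLocalGaloisGroup q) :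
    ((primeLocalEquivDecomposition q τ : ↥((primeLocalPlace q).decompositionSubgroup ℚ)) :
      Qb ≃ₐ[ℚ] Qb) = primeLocalToGlobal q τ := rfl

end Primes

end Fermat.Agent.TW.Bridge.LocalGlobal97
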