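/-
helper97 (TW, bridge brick, part 2): **local inertia = global inertia**.

For `τ ∈ Gal(ℚ̄_q/ℚ_q)`: `localGaloisToGlobal q τ` lies in the (Prelude) inertia group of `padicPlace q`
iff `τ` moves every element of the closed unit ball of `PadicAlgCl q` by an element of norm `< 1`
(this is `TW/FF/Spec72.inertiaSet`).  Also: `ι(ℚ̄)` is dense in `PadicAlgCl q`.
-/
import Mathlib
import Fermat.Agent.S05.Inertia
import Fermat.Agent.TW.Bridge.LocalGlobal97

set_option autoImplicit false

open scoped NNReal TensorProduct Pointwise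

namespace Fermat.Agent.TW.Bridge.LocalInertia97

open Fermat.Agent.TW.Bridge.LocalGlobal97

local notation "Qb" => AlgebraicClosure ℚ

section Generic

variable {K L : Type*} [Field K] [Field L] [Algebra K L]

/-- Converse of `S05.Inertia.apply_sub_mem_nonunits`. -/
theorem mem_inertiaSubgroupIn_of_forall {A : ValuationSubring L} {σ : L ≃ₐ[K] L}
    (hD : σ ∈ A.decompositionSubgroup K) (h : ∀ x ∈ A, σ x - x ∈ A.nonunits) :
    σ ∈ A.inertiaSubgroupIn K := by
  rw [ValuationSubring.inertiaSubgroupIn, Subgroup.mem_map]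
  refine ⟨⟨σ, hD⟩, ?_, rfl⟩
  rw [ValuationSubring.inertiaSubgroup, MonoidHom.mem_ker]
  ext xbar
  obtain ⟨x, rfl⟩ := IsLocalRing.residue_surjective xbar
  set g : A.decompositionSubgroup K := ⟨σ, hD⟩ with hg
  change g • (IsLocalRing.residue A x) = IsLocalRing.residue A x
  rw [← IsLocalRing.ResidueField.residue_smul, ← sub_eq_zero, ← map_sub,
    IsLocalRing.residue_eq_zero_iff, ← ValuationSubring.coe_mem_nonunits_iff]
  exact h x x.2

theorem mem_inertiaSubgroupIn_iff_forall {A : ValuationSubring L} {σ : L ≃ₐ[K] L} :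
    σ ∈ A.inertiaSubgroupIn K ↔
      σ ∈ A.decompositionSubgroup K ∧ ∀ x ∈ A, σ x - x ∈ A.nonunits :=
  ⟨fun h => ⟨Fermat.Agent.S05.Inertia.mem_decompositionSubgroup h,
    fun _ hx => Fermat.Agent.S05.Inertia.apply_sub_mem_nonunits h hx⟩,
   fun h => mem_inertiaSubgroupIn_of_forall h.1 h.2⟩

end Generic

section Padic

variable (q : ℕ) [Fact q.Prime]

/-- Membership in the maximal ideal of `padicPlace q` in terms of the norm. -/
theorem mem_nonunits_padicPlace_iff (x : Qb) :
    x ∈ (padicPlace q).nonunits ↔ ‖padicEmbedding q x‖ < 1 := by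
  rw [ValuationSubring.mem_nonunits_iff]
  by_cases hx : x = 0
  · subst hx
    rw [map_zero, map_zero, norm_zero]
    exact ⟨fun _ => one_pos, fun _ => zero_lt_one⟩
  have hιx : padicEmbedding q x ≠ 0 := by
    rw [Ne, map_eq_zero]
    exact hx
  have h1 : (padicPlace q).valuation x < 1 ↔ x⁻¹ ∉ padicPlace q := by
    rw [← (padicPlace q).valuation_le_one_iff, map_inv₀, not_le, one_lt_inv₀]
    exact zero_lt_iff.mpr ((map_ne_zero _).mpr hx)
  rw [h1, mem_padicPlace_iff, map_inv₀, nnnorm_inv, not_le, ← NNReal.coe_lt_coe, NNReal.coe_one,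
    NNReal.coe_inv, coe_nnnorm, one_lt_inv₀ (norm_pos_iff.mpr hιx)]

/-- `ι(ℚ̄)` is dense in `PadicAlgCl q`. -/
theorem exists_norm_sub_padicEmbedding_lt (z : PadicAlgCl q) {ε : ℝ} (hε : 0 < ε) :
    ∃ y : Qb, ‖z - padicEmbedding q y‖ < ε := by
  obtain ⟨t, rfl⟩ := prodMap_one_surjective q z
  obtain ⟨S, rfl⟩ := TensorProduct.exists_finset t
  rw [map_sum]
  simp only [prodMap_tmul, AlgEquiv.one_apply]
  set C : ℝ := ∑ i ∈ S, ‖padicEmbedding q i.2‖ with hC
  have hC0 : 0 ≤ C := Finset.sum_nonneg fun i _ => norm_nonneg _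
  have hC1 : 0 < C + 1 := by linarith
  have hε' : 0 < ε / (C + 1) := div_pos hε hC1
  choose r hr using fun a : ℚ_[q] => Padic.rat_dense q a hε'
  refine ⟨∑ i ∈ S, (r i.1 : Qb) * i.2, ?_⟩
  have hfr : ∀ c : ℚ, fQ q (c : ℚ_[q]) = (c : PadicAlgCl q) := fun c => by
    rw [fQ_apply, map_ratCast]
  have e1 : (∑ i ∈ S, fQ q i.1 * padicEmbedding q i.2) -
      padicEmbedding q (∑ i ∈ S, (r i.1 : Qb) * i.2) =
      ∑ i ∈ S, fQ q (i.1 - (r i.1 : ℚ_[q])) * padicEmbedding q i.2 := by
    rw [map_sum, ← Finset.sum_sub_distrib]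
    refine Finset.sum_congr rfl fun i _ => ?_
    rw [map_mul, map_ratCast, map_sub, sub_mul, hfr]
  rw [e1]
  calc ‖∑ i ∈ S, fQ q (i.1 - (r i.1 : ℚ_[q])) * padicEmbedding q i.2‖
      ≤ ∑ i ∈ S, ε / (C + 1) * ‖padicEmbedding q i.2‖ := by
        refine (norm_sum_le _ _).trans (Finset.sum_le_sum fun i _ => ?_)
        rw [norm_mul, norm_fQ]
        exact mul_le_mul_of_nonneg_right (hr i.1).le (norm_nonneg _)
    _ = ε * (C / (C + 1)) := by
        rw [← Finset.mul_sum, ← hC]
        field_simp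
    _ < ε * 1 := by
        gcongr
        exact (div_lt_one hC1).mpr (by linarith)
    _ = ε := mul_one ε

theorem norm_sub_le_max' (a b : PadicAlgCl q) : ‖a - b‖ ≤ max ‖a‖ ‖b‖ := by
  rw [sub_eq_add_neg]
  refine (IsUltrametricDist.norm_add_le_max a (-b)).trans ?_
  rw [norm_neg]

/-- Elements of the local Galois group are isometries (Prelude, real-valued form). -/
theorem norm_algEquiv (τ : PadicAlgCl q ≃ₐ[ℚ_[q]] PadicAlgCl q) (y : PadicAlgCl q) :
    ‖τ y‖ = ‖y‖ := by
  have := nnnorm_padicAlgCl_algEquiv q τ y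
  exact congrArg (fun t : ℝ≥0 => (t : ℝ)) this

/-- **Local inertia = global inertia.** -/
theorem localGaloisToGlobal_mem_inertia_iff (τ : PadicAlgCl q ≃ₐ[ℚ_[q]] PadicAlgCl q) :
    localGaloisToGlobal q τ ∈ (padicPlace q).inertiaSubgroupIn ℚ ↔
      ∀ x : PadicAlgCl q, ‖x‖ ≤ 1 → ‖τ x - x‖ < 1 := by
  rw [mem_inertiaSubgroupIn_iff_forall]
  constructor
  · rintro ⟨-, h⟩ z hz
    -- approximate `z` by `ι y`
    obtain ⟨y, hy⟩ := exists_norm_sub_padicEmbedding_lt q z one_pos
    have hyP : y ∈ padicPlace q := by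
      rw [mem_padicPlace_iff, ← NNReal.coe_le_coe, coe_nnnorm, NNReal.coe_one]
      have e : padicEmbedding q y = z - (z - padicEmbedding q y) := by ring
      rw [e]
      exact (norm_sub_le_max' q _ _).trans (max_le hz hy.le)
    have h1 : ‖τ (padicEmbedding q y) - padicEmbedding q y‖ < 1 := by
      have := h y hyP
      rw [mem_nonunits_padicPlace_iff, map_sub, padicEmbedding_localGaloisToGlobal] at this
      exact this
    have e : τ z - z = (τ (z - padicEmbedding q y) + (τ (padicEmbedding q y) - padicEmbedding q y))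
        - (z - padicEmbedding q y) := by
      rw [map_sub]
      ring
    rw [e]
    refine lt_of_le_of_lt (norm_sub_le_max' q _ _) (max_lt ?_ hy)
    refine lt_of_le_of_lt (IsUltrametricDist.norm_add_le_max _ _) (max_lt ?_ h1)
    rw [norm_algEquiv]
    exact hy
  · intro h
    refine ⟨localGaloisToGlobal_mem_decompositionSubgroup q τ, fun x hx => ?_⟩
    rw [mem_nonunits_padicPlace_iff, map_sub, padicEmbedding_localGaloisToGlobal]
    apply h
    have := (mem_padicPlace_iff q).mp hx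
    exact_mod_cast this

/-- Every element of the global inertia group at `padicPlace q` comes from a local element moving
the unit ball by less than `1`. -/
theorem exists_local_inertia_of_mem_inertia {σ : Qb ≃ₐ[ℚ] Qb}
    (hσ : σ ∈ (padicPlace q).inertiaSubgroupIn ℚ) :
    ∃ τ : PadicAlgCl q ≃ₐ[ℚ_[q]] PadicAlgCl q, localGaloisToGlobal q τ = σ ∧
      ∀ x : PadicAlgCl q, ‖x‖ ≤ 1 → ‖τ x - x‖ < 1 := by
  obtain ⟨τ, rfl⟩ := exists_localGaloisToGlobal_eq q
    (Fermat.Agent.S05.Inertia.mem_decompositionSubgroup hσ)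
  exact ⟨τ, rfl, (localGaloisToGlobal_mem_inertia_iff q τ).mp hσ⟩

end Padic


end Fermat.Agent.TW.Bridge.LocalInertia97
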