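/-
TW / WP7 (helper97): a sharpened Krasner approximation.  Every finite extension of `ℚ_q` inside
`PadicAlgCl q` is generated by (the image of) a single element of `ℚ̄`:

* `exists_adjoin_padicEmbedding_eq (a)` : `∃ β : ℚ̄, ℚ_q(ι β) = ℚ_q(a)`;
* `exists_eq_adjoin_padicEmbedding (E)` : `E` finite ⇒ `∃ β : ℚ̄, E = ℚ_q(ι β)`.

(`PT/BR/LocInj13.exists_mem_adjoin_padicEmbedding` only gives `a ∈ ℚ_q(ι β)`.)
-/
import Mathlib
import Fermat.Agent.PT.BR.LocInj13

set_option autoImplicit false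

open Polynomial IntermediateField

namespace Fermat.Agent.TW.Bridge.KrasnerEq97

open Fermat.Agent.PT.BR.LocInj13

variable (q : ℕ) [Fact q.Prime]

/-- **Krasner, with equality.** -/
theorem exists_adjoin_padicEmbedding_eq (a : PadicAlgCl q) :
    ∃ β : AlgebraicClosure ℚ, ℚ_[q]⟮padicEmbedding q β⟯ = ℚ_[q]⟮a⟯ := by
  classical
  set f : ℚ_[q][X] := minpoly ℚ_[q] a with hf
  have hint : IsIntegral ℚ_[q] a := Algebra.IsIntegral.isIntegral a
  have fmon : f.Monic := minpoly.monic hint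
  have fa0 : f.aeval a = 0 := minpoly.aeval _ _
  have fnatdeg0 : f.natDegree ≠ 0 := (minpoly.natDegree_pos hint).ne'
  let S : Finset (PadicAlgCl q) := {x ∈ (f.rootSet (PadicAlgCl q)).toFinset | x ≠ a}
  let δ : ℝ := if hS : S.Nonempty then Finset.min' (S.image fun x => ‖a - x‖)
      (Finset.image_nonempty.mpr hS) else 1
  have norm_sub_le : ∀ a' : PadicAlgCl q, IsConjRoot ℚ_[q] a a' → a ≠ a' → δ ≤ ‖a - a'‖ := by
    intro a' conj ne
    by_cases hS : S.Nonempty <;> simp only [hS, ↓reduceDIte, δ]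
    · apply Finset.min'_le (S.image fun x => ‖a - x‖) (‖a - a'‖)
      apply Finset.mem_image_of_mem
      simp only [Finset.mem_filter, Set.mem_toFinset, S]
      rw [hf, ← (isConjRoot_iff_mem_minpoly_rootSet hint)]
      exact ⟨conj, ne.symm⟩
    · simp only [ne_eq, Finset.not_nonempty_iff_eq_empty, Finset.filter_eq_empty_iff,
        Set.mem_toFinset, not_not, S] at hS
      rw [isConjRoot_iff_mem_minpoly_rootSet hint] at conj
      exact (ne (hS conj).symm).elim
  have δpos : δ > 0 := by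
    by_cases hS : S.Nonempty <;> simp only [hS, ↓reduceDIte, δ]
    · simp only [gt_iff_lt, Finset.lt_min'_iff, Finset.mem_image, forall_exists_index, and_imp,
        forall_apply_eq_imp_iff₂]
      rintro a' ha'
      simp only [Finset.mem_filter, Set.mem_toFinset, S] at ha'
      rw [norm_pos_iff, sub_ne_zero]
      exact ha'.2.symm
    · linarith
  have hε : (δ / (max ‖a‖ 1)) ^ f.natDegree / (f.natDegree + 1) > 0 := by positivity
  have hd : DenseRange (algebraMap ℚ ℚ_[q]) := by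
    have : (algebraMap ℚ ℚ_[q] : ℚ → ℚ_[q]) = ((↑) : ℚ → ℚ_[q]) := by
      funext r; simp
    rw [this]; exact Padic.denseRange_ratCast q
  obtain ⟨g, gmon, gdeg, gcoeff⟩ :=
    exists_monic_and_natDegree_eq_and_norm_map_algebraMap_coeff_sub_lt hd fmon hε
  obtain ⟨b, hb, hab⟩ := exists_aroots_norm_sub_lt_of_norm_coeff_sub_lt (L := PadicAlgCl q)
      hε fa0 fmon (gmon.map _) (gdeg ▸ (g.natDegree_map _)) gcoeff (IsAlgClosed.splits _)
  have hab : ‖a - b‖ < δ := by
    rw [← Real.rpow_natCast, ← mul_comm_div, div_self, one_mul,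
        ← Real.rpow_mul (div_pos δpos (by positivity)).le, mul_inv_cancel₀] at hab
    · simpa [mul_assoc, div_mul_cancel₀ _ (by positivity : (max ‖a‖ 1) > 0).ne'] using hab
    · simp [fnatdeg0]
    · positivity
  simp only [Polynomial.mem_roots', ne_eq, Polynomial.map_eq_zero, Polynomial.IsRoot.def,
    Polynomial.eval_map_algebraMap] at hb
  -- `b` is algebraic over `ℚ`
  have hbint : IsIntegral ℚ b := by
    refine ⟨g, gmon, ?_⟩
    have := hb.2
    rwa [Polynomial.aeval_map_algebraMap] at this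
  obtain ⟨β, hβ⟩ := exists_padicEmbedding_eq_of_isIntegral q hbint
  refine ⟨β, ?_⟩
  rw [hβ]
  have masp : ((minpoly ℚ_[q] a).map (algebraMap ℚ_[q] (PadicAlgCl q))).Splits :=
    IsAlgClosed.splits _
  have hmem : a ∈ ℚ_[q]⟮b⟯ :=
    IsKrasner.krasner (minpoly.irreducible hint).separable masp
      (Algebra.IsIntegral.isIntegral b)
      fun a' h1 h2 ↦ lt_of_lt_of_le hab (norm_sub_le a' h1 h2)
  -- now compare degrees
  have hle : ℚ_[q]⟮a⟯ ≤ ℚ_[q]⟮b⟯ := adjoin_simple_le_iff.mpr hmem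
  have hbint' : IsIntegral ℚ_[q] b := Algebra.IsIntegral.isIntegral b
  have hdeg : Module.finrank ℚ_[q] ℚ_[q]⟮b⟯ ≤ Module.finrank ℚ_[q] ℚ_[q]⟮a⟯ := by
    rw [IntermediateField.adjoin.finrank hbint', IntermediateField.adjoin.finrank hint]
    have h1 : minpoly ℚ_[q] b ∣ g.map (algebraMap ℚ ℚ_[q]) := minpoly.dvd _ _ hb.2
    have h2 := Polynomial.natDegree_le_of_dvd h1 (gmon.map _).ne_zero
    rw [g.natDegree_map, ← gdeg] at h2
    exact h2
  have : FiniteDimensional ℚ_[q] ℚ_[q]⟮b⟯ := IntermediateField.adjoin.finiteDimensional hbint'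
  exact (IntermediateField.eq_of_le_of_finrank_le hle hdeg).symm

/-- Every finite extension of `ℚ_q` in `PadicAlgCl q` is `ℚ_q(ι β)` for some `β ∈ ℚ̄`. -/
theorem exists_eq_adjoin_padicEmbedding (E : IntermediateField ℚ_[q] (PadicAlgCl q))
    [FiniteDimensional ℚ_[q] E] :
    ∃ β : AlgebraicClosure ℚ, E = ℚ_[q]⟮padicEmbedding q β⟯ := by
  obtain ⟨α, hα⟩ := Field.exists_primitive_element ℚ_[q] E
  obtain ⟨β, hβ⟩ := exists_adjoin_padicEmbedding_eq q (α : PadicAlgCl q)
  refine ⟨β, ?_⟩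
  rw [hβ]
  have h := congrArg (IntermediateField.lift (F := E)) hα
  rw [IntermediateField.lift_top, IntermediateField.lift_adjoin_simple] at h
  exact h.symm

end Fermat.Agent.TW.Bridge.KrasnerEq97
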